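import Mathlib

set_option autoImplicit false

namespace Fermat.Agent.S11

open ZMod

set_option maxRecDepth 100000 in
/-- Eleventh powers modulo `121` of residues prime to `11`. -/
lemma pow_eleven_of_castHom_ne_zero (n : ZMod 121) :
    castHom (show 11 ∣ 121 by norm_num) (ZMod 11) n ≠ 0 →
      n ^ 11 = 1 ∨ n ^ 11 = 3 ∨ n ^ 11 = 9 ∨ n ^ 11 = 27 ∨ n ^ 11 = 81 ∨
      n ^ 11 = 120 ∨ n ^ 11 = 118 ∨ n ^ 11 = 112 ∨ n ^ 11 = 94 ∨ n ^ 11 = 40 := by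
  revert n; decide

lemma pow_eleven_of_not_dvd {n : ℤ} (h : ¬ (11 : ℤ) ∣ n) :
    (n : ZMod 121) ^ 11 = 1 ∨ (n : ZMod 121) ^ 11 = 3 ∨ (n : ZMod 121) ^ 11 = 9 ∨
    (n : ZMod 121) ^ 11 = 27 ∨ (n : ZMod 121) ^ 11 = 81 ∨ (n : ZMod 121) ^ 11 = 120 ∨
    (n : ZMod 121) ^ 11 = 118 ∨ (n : ZMod 121) ^ 11 = 112 ∨ (n : ZMod 121) ^ 11 = 94 ∨
    (n : ZMod 121) ^ 11 = 40 := by
  apply pow_eleven_of_castHom_ne_zero
  rwa [map_intCast, Ne, ZMod.intCast_zmod_eq_zero_iff_dvd]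

/-- Case I of Fermat's Last Theorem for exponent `11`. -/
theorem caseI_eleven {a b c : ℤ} (hdvd : ¬ (11 : ℤ) ∣ a * b * c) :
    a ^ 11 + b ^ 11 ≠ c ^ 11 := by
  have h11 : Prime (11 : ℤ) := by norm_num
  simp_rw [h11.dvd_mul, not_or] at hdvd
  apply mt (congrArg (Int.cast : ℤ → ZMod 121))
  simp_rw [Int.cast_add, Int.cast_pow]
  rcases pow_eleven_of_not_dvd hdvd.1.1 with ha | ha | ha | ha | ha | ha | ha | ha | ha | ha <;>
  rcases pow_eleven_of_not_dvd hdvd.1.2 with hb | hb | hb | hb | hb | hb | hb | hb | hb | hb <;>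
  rcases pow_eleven_of_not_dvd hdvd.2 with hc | hc | hc | hc | hc | hc | hc | hc | hc | hc <;>
  rw [ha, hb, hc] <;> decide

end Fermat.Agent.S11
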