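import Mathlib

set_option autoImplicit false

namespace Fermat.Agent.S11

open NumberField

/-- Kummer's lemma for the prime `p` and the `p`-th cyclotomic field `K`, as a property:
a unit of `𝓞 K` congruent to a rational integer modulo `p` is a `p`-th power of a unit. -/
def KummerLemma (p : ℕ) (K : Type*) [Field K] [NumberField K] : Prop :=
  ∀ u : (𝓞 K)ˣ, (∃ n : ℤ, (p : 𝓞 K) ∣ (u : 𝓞 K) - n) → ∃ v : (𝓞 K)ˣ, u = v ^ p

/-- `11` is prime, as a fact. -/
lemma fact_prime_eleven : Fact (Nat.Prime 11) := ⟨by norm_num⟩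

end Fermat.Agent.S11
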