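import Mathlib
import Fermat.Agent.S11.Defs

set_option autoImplicit false
set_option linter.unusedSectionVars false

namespace Fermat.Agent.S11

open NumberField Polynomial Finset

section general

variable {p : ℕ} [hp : Fact p.Prime] {K : Type*} [Field K] [NumberField K]
  [IsCyclotomicExtension {p} ℚ K] {ζ : K} (hζ : IsPrimitiveRoot ζ p)

/-- Every element of `𝓞 K` is congruent to a rational integer modulo `ζ - 1`. -/
lemma exists_int_sub_dvd (w : 𝓞 K) : ∃ n : ℤ, (hζ.toInteger - 1) ∣ w - n := by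
  have htop : Algebra.adjoin ℤ {hζ.toInteger} = ⊤ := by
    have := hζ.integralPowerBasis.adjoin_gen_eq_top
    rwa [hζ.integralPowerBasis_gen] at this
  have hw : w ∈ Algebra.adjoin ℤ {hζ.toInteger} := by rw [htop]; trivial
  induction hw using Algebra.adjoin_induction with
  | mem x hx =>
    refine ⟨1, ?_⟩
    rw [Set.mem_singleton_iff] at hx
    simp [hx]
  | algebraMap r => exact ⟨r, by simp⟩
  | add x y _ _ hx hy =>
    obtain ⟨n, hn⟩ := hx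
    obtain ⟨m, hm⟩ := hy
    refine ⟨n + m, ?_⟩
    have : x + y - ((n + m : ℤ) : 𝓞 K) = (x - n) + (y - m) := by push_cast; ring
    rw [this]
    exact dvd_add hn hm
  | mul x y _ _ hx hy =>
    obtain ⟨n, hn⟩ := hx
    obtain ⟨m, hm⟩ := hy
    refine ⟨n * m, ?_⟩
    have : x * y - ((n * m : ℤ) : 𝓞 K) = (x - n) * y + n * (y - m) := by push_cast; ring
    rw [this]
    exact dvd_add (dvd_mul_of_dvd_left hn _) (dvd_mul_of_dvd_right hm _)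

omit [NumberField K] [IsCyclotomicExtension {p} ℚ K] in
lemma prime_dvd_pow_sub_one : (p : 𝓞 K) ∣ (hζ.toInteger - 1) ^ (p - 1) :=
  (IsCyclotomicExtension.Rat.associated_zeta_sub_one_pow_prime p hζ).symm.dvd

omit [NumberField K] [IsCyclotomicExtension {p} ℚ K] in
lemma prime_dvd_pow_self : (p : 𝓞 K) ∣ (hζ.toInteger - 1) ^ p := by
  rw [← pow_sub_one_mul hp.out.ne_zero]
  exact dvd_mul_of_dvd_left (prime_dvd_pow_sub_one hζ) _

/-- The `p`-th power of any element is congruent to a rational integer modulo `p`. -/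
lemma exists_int_pow_sub_dvd (w : 𝓞 K) :
    ∃ n : ℤ, (p : 𝓞 K) ∣ w ^ p - n ∧ ((p : ℤ) ∣ n → (hζ.toInteger - 1) ∣ w) := by
  obtain ⟨m, v, hv⟩ := exists_int_sub_dvd hζ w
  refine ⟨m ^ p, ?_, ?_⟩
  · have hw : w = (m : 𝓞 K) + (hζ.toInteger - 1) * v := by rw [← hv]; ring
    obtain ⟨r, hr⟩ := exists_add_pow_prime_eq hp.out (m : 𝓞 K) ((hζ.toInteger - 1) * v)
    have h1 : (p : 𝓞 K) ∣ ((hζ.toInteger - 1) * v) ^ p := by
      rw [mul_pow]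
      exact dvd_mul_of_dvd_left (prime_dvd_pow_self hζ) _
    obtain ⟨t, ht⟩ := h1
    refine ⟨t + m * ((hζ.toInteger - 1) * v) * r, ?_⟩
    rw [hw, hr, ht]
    push_cast
    ring
  · intro hdvd
    have hpm : (p : ℤ) ∣ m := Int.Prime.dvd_pow' hp.out hdvd
    have h3 : (hζ.toInteger - 1) ∣ (m : 𝓞 K) :=
      (IsCyclotomicExtension.Rat.zeta_sub_one_dvd_intCast_iff' p hζ).mpr hpm
    have h2 : w = (w - m) + m := by ring
    rw [h2]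
    exact dvd_add ⟨v, hv⟩ h3

/-- A solution of the generalised Fermat equation `x ^ p + y ^ p = ε * z ^ p` in `𝓞 K`
with `ζ - 1` dividing `z` only. -/
def IsSol (x y z : 𝓞 K) : Prop :=
  ¬ (hζ.toInteger - 1) ∣ x ∧ ¬ (hζ.toInteger - 1) ∣ y ∧ z ≠ 0 ∧ IsCoprime x y ∧
    (hζ.toInteger - 1) ∣ z ∧ ∃ ε : (𝓞 K)ˣ, x ^ p + y ^ p = ε * z ^ p

variable {hζ}

/-- The factorisation of `x ^ p + y ^ p` over the `p`-th roots of unity. -/
lemma pow_add_pow_eq_prod (hζ : IsPrimitiveRoot ζ p) (hp2 : p ≠ 2) (x y : 𝓞 K) :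
    x ^ p + y ^ p = ∏ η ∈ nthRootsFinset p (1 : 𝓞 K), (x + η * y) :=
  hζ.toInteger_isPrimitiveRoot.pow_add_pow_eq_prod_add_mul x y (hp.out.odd_of_ne_two hp2)

lemma IsSol.dvd_add_mul (hp2 : p ≠ 2) {x y z : 𝓞 K} (h : IsSol hζ x y z) {η : 𝓞 K}
    (hη : η ∈ nthRootsFinset p (1 : 𝓞 K)) : (hζ.toInteger - 1) ∣ x + η * y := by
  obtain ⟨hx, hy, hz, hxy, hzd, ε, hε⟩ := h
  have hprime := hζ.zeta_sub_one_prime'
  have h1 : (hζ.toInteger - 1) ∣ ∏ η ∈ nthRootsFinset p (1 : 𝓞 K), (x + η * y) := by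
    rw [← pow_add_pow_eq_prod hζ hp2, hε]
    exact dvd_mul_of_dvd_right (dvd_pow hzd hp.out.ne_zero) _
  obtain ⟨η₀, hη₀, hdvd⟩ := hprime.exists_mem_finset_dvd h1
  have h2 : (hζ.toInteger - 1) ∣ η - η₀ :=
    hζ.toInteger_isPrimitiveRoot.sub_one_dvd_sub hp.out hη hη₀
  have : x + η * y = (x + η₀ * y) + (η - η₀) * y := by ring
  rw [this]
  exact dvd_add hdvd (dvd_mul_of_dvd_left h2 _)

/-- Normalisation: we may assume `(ζ - 1) ^ 2 ∣ x + y`. -/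
lemma IsSol.exists_sq_dvd (hp2 : p ≠ 2) {x y z : 𝓞 K} (h : IsSol hζ x y z) :
    ∃ y₁, IsSol hζ x y₁ z ∧ (hζ.toInteger - 1) ^ 2 ∣ x + y₁ := by
  have hprime := hζ.zeta_sub_one_prime'
  have hζ' := hζ.toInteger_isPrimitiveRoot
  obtain ⟨a, ha⟩ : (hζ.toInteger - 1) ∣ x + y := by
    have := h.dvd_add_mul hp2 (η := 1) (one_mem_nthRootsFinset hp.out.pos)
    simpa using this
  obtain ⟨na, hna⟩ := exists_int_sub_dvd hζ a
  obtain ⟨ny, hny⟩ := exists_int_sub_dvd hζ y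
  have hpny : ¬ (p : ℤ) ∣ ny := by
    intro hd
    apply h.2.1
    have h3 := (IsCyclotomicExtension.Rat.zeta_sub_one_dvd_intCast_iff' p hζ).mpr hd
    have : y = (y - ny) + ny := by ring
    rw [this]; exact dvd_add hny h3
  obtain ⟨i, hi⟩ : ∃ i : ℕ, (p : ℤ) ∣ na + i * ny := by
    have hny0 : (ny : ZMod p) ≠ 0 := by rwa [Ne, ZMod.intCast_zmod_eq_zero_iff_dvd]
    refine ⟨((-na : ZMod p) * (ny : ZMod p)⁻¹).val, ?_⟩
    rw [← ZMod.intCast_zmod_eq_zero_iff_dvd]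
    push_cast
    rw [ZMod.natCast_zmod_val]
    field_simp
    ring
  refine ⟨hζ.toInteger ^ i * y, ?_, ?_⟩
  · obtain ⟨hx, hy, hz, hxy, hzd, ε, hε⟩ := h
    have hu : IsUnit (hζ.toInteger ^ i) := (hζ'.isUnit hp.out.ne_zero).pow i
    refine ⟨hx, ?_, hz, ?_, hzd, ε, ?_⟩
    · rwa [hu.dvd_mul_left]
    · exact (isCoprime_mul_unit_left_right hu _ _).2 hxy
    · rw [mul_pow, ← pow_mul, mul_comm i p, pow_mul, hζ'.pow_eq_one, one_pow, one_mul, hε]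
  · have hgeom : hζ.toInteger ^ i - 1 =
        (hζ.toInteger - 1) * ∑ j ∈ range i, hζ.toInteger ^ j := by
      rw [mul_comm, geom_sum_mul]
    have hs : (hζ.toInteger - 1) ∣ (∑ j ∈ range i, hζ.toInteger ^ j) - i := by
      have : (∑ j ∈ range i, hζ.toInteger ^ j) - i = ∑ j ∈ range i, (hζ.toInteger ^ j - 1) := by
        simp [Finset.sum_sub_distrib]
      rw [this]
      refine Finset.dvd_sum fun j _ => ?_
      simpa using sub_dvd_pow_sub_pow hζ.toInteger 1 j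
    have hai : (hζ.toInteger - 1) ∣ a + i * y := by
      have : a + i * y = (a - na) + i * (y - ny) + ((na + i * ny : ℤ) : 𝓞 K) := by
        push_cast; ring
      rw [this]
      exact dvd_add (dvd_add hna (dvd_mul_of_dvd_right hny _))
        ((IsCyclotomicExtension.Rat.zeta_sub_one_dvd_intCast_iff' p hζ).mpr hi)
    obtain ⟨s, hs⟩ := hs
    obtain ⟨t, ht⟩ := hai
    refine ⟨t + s * y, ?_⟩
    have : x + hζ.toInteger ^ i * y = (x + y) + (hζ.toInteger ^ i - 1) * y := by ring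
    rw [this, ha, hgeom]
    have hS : ∑ j ∈ range i, hζ.toInteger ^ j = i + (hζ.toInteger - 1) * s := by
      rw [← hs]; ring
    rw [hS]
    linear_combination (hζ.toInteger - 1) * ht

lemma not_dvd_of_ne_one {x y : 𝓞 K} (hy : ¬ (hζ.toInteger - 1) ∣ y)
    (hsq : (hζ.toInteger - 1) ^ 2 ∣ x + y) {a : 𝓞 K → 𝓞 K}
    (ha : ∀ η ∈ nthRootsFinset p (1 : 𝓞 K), x + η * y = (hζ.toInteger - 1) * a η)
    {η : 𝓞 K} (hη : η ∈ nthRootsFinset p (1 : 𝓞 K)) (hη1 : η ≠ 1) :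
    ¬ (hζ.toInteger - 1) ∣ a η := by
  intro hd
  have hprime := hζ.zeta_sub_one_prime'
  have hζ' := hζ.toInteger_isPrimitiveRoot
  obtain ⟨u, hu⟩ := hζ'.nthRootsFinset_pairwise_associated_sub_one_sub_of_prime hp.out hη
    (one_mem_nthRootsFinset hp.out.pos) hη1
  obtain ⟨b, hb⟩ := hd
  obtain ⟨c, hc⟩ := hsq
  apply hy
  refine ⟨(b - c) * (u⁻¹ : (𝓞 K)ˣ), ?_⟩
  have h1 : (hζ.toInteger - 1) * (u * y) =
      (hζ.toInteger - 1) * ((hζ.toInteger - 1) * (b - c)) := by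
    have := ha η hη
    rw [hb] at this
    linear_combination this - hc + y * hu
  have h2 := mul_left_cancel₀ hprime.ne_zero h1
  calc y = (u⁻¹ : (𝓞 K)ˣ) * (u * y) := by simp
    _ = _ := by rw [h2]; ring

lemma isCoprime_of_ne {x y : 𝓞 K} (hxy : IsCoprime x y) {a : 𝓞 K → 𝓞 K}
    (ha : ∀ η ∈ nthRootsFinset p (1 : 𝓞 K), x + η * y = (hζ.toInteger - 1) * a η)
    {η₁ η₂ : 𝓞 K} (h₁ : η₁ ∈ nthRootsFinset p (1 : 𝓞 K))
    (h₂ : η₂ ∈ nthRootsFinset p (1 : 𝓞 K)) (hne : η₁ ≠ η₂) : IsCoprime (a η₁) (a η₂) := by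
  have hprime := hζ.zeta_sub_one_prime'
  have hζ' := hζ.toInteger_isPrimitiveRoot
  obtain ⟨u, hu⟩ := hζ'.nthRootsFinset_pairwise_associated_sub_one_sub_of_prime hp.out h₁ h₂ hne
  obtain ⟨r, s, hrs⟩ := hxy
  have e1 : a η₁ - a η₂ = u * y := by
    apply mul_left_cancel₀ hprime.ne_zero
    linear_combination -ha η₁ h₁ + ha η₂ h₂ - y * hu
  have e2 : η₂ * a η₁ - η₁ * a η₂ = - (u * x) := by
    apply mul_left_cancel₀ hprime.ne_zero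
    linear_combination -η₂ * ha η₁ h₁ + η₁ * ha η₂ h₂ + x * hu
  have hu' : ((u⁻¹ : (𝓞 K)ˣ) : 𝓞 K) * u = 1 := by simp
  refine ⟨(-r * η₂ + s) * (u⁻¹ : (𝓞 K)ˣ), (r * η₁ - s) * (u⁻¹ : (𝓞 K)ˣ), ?_⟩
  linear_combination (-r * ((u⁻¹ : (𝓞 K)ˣ) : 𝓞 K)) * e2 + (s * ((u⁻¹ : (𝓞 K)ˣ) : 𝓞 K)) * e1 +
    (r * x + s * y) * hu' + hrs

lemma prod_eq (hp2 : p ≠ 2) {x y z₁ : 𝓞 K} {ε : (𝓞 K)ˣ} {a : 𝓞 K → 𝓞 K}
    (ha : ∀ η ∈ nthRootsFinset p (1 : 𝓞 K), x + η * y = (hζ.toInteger - 1) * a η)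
    (hε : x ^ p + y ^ p = ε * ((hζ.toInteger - 1) * z₁) ^ p) :
    ∏ η ∈ nthRootsFinset p (1 : 𝓞 K), a η = ε * z₁ ^ p := by
  have hprime := hζ.zeta_sub_one_prime'
  have hζ' := hζ.toInteger_isPrimitiveRoot
  apply mul_left_cancel₀ (pow_ne_zero p hprime.ne_zero)
  calc (hζ.toInteger - 1) ^ p * ∏ η ∈ nthRootsFinset p (1 : 𝓞 K), a η
      = ∏ η ∈ nthRootsFinset p (1 : 𝓞 K), ((hζ.toInteger - 1) * a η) := by
        rw [Finset.prod_mul_distrib, Finset.prod_const, hζ'.card_nthRootsFinset]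
    _ = ∏ η ∈ nthRootsFinset p (1 : 𝓞 K), (x + η * y) :=
        Finset.prod_congr rfl (fun η hη => (ha η hη).symm)
    _ = x ^ p + y ^ p := (pow_add_pow_eq_prod hζ hp2 x y).symm
    _ = _ := by rw [hε, mul_pow]; ring

lemma exists_associated_pow [IsPrincipalIdealRing (𝓞 K)] {a : 𝓞 K → 𝓞 K} {ε : (𝓞 K)ˣ}
    {z₁ : 𝓞 K}
    (hcop : ∀ η₁ ∈ nthRootsFinset p (1 : 𝓞 K), ∀ η₂ ∈ nthRootsFinset p (1 : 𝓞 K),
      η₁ ≠ η₂ → IsCoprime (a η₁) (a η₂))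
    (hprod : ∏ η ∈ nthRootsFinset p (1 : 𝓞 K), a η = ε * z₁ ^ p)
    {η : 𝓞 K} (hη : η ∈ nthRootsFinset p (1 : 𝓞 K)) :
    ∃ d : 𝓞 K, Associated (d ^ p) (a η) := by
  classical
  have h1 : a η * ∏ η' ∈ (nthRootsFinset p (1 : 𝓞 K)).erase η, a η' = ε * z₁ ^ p := by
    rw [Finset.mul_prod_erase _ _ hη, hprod]
  have h2 : IsCoprime (a η) (∏ η' ∈ (nthRootsFinset p (1 : 𝓞 K)).erase η, a η') :=
    IsCoprime.prod_right fun η' hη' =>
      hcop η hη η' (Finset.mem_of_mem_erase hη') (Finset.ne_of_mem_erase hη').symm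
  refine exists_associated_pow_of_associated_pow_mul h2 (c := z₁) ?_
  rw [h1]
  exact ⟨ε, by ring⟩

/-- The descent step. -/
theorem IsSol.descent (hp2 : p ≠ 2) [IsPrincipalIdealRing (𝓞 K)] (hK : KummerLemma p K)
    {x y z : 𝓞 K} (h : IsSol hζ x y z) :
    ∃ x' y' z', IsSol hζ x' y' z' ∧
      ∀ k, (hζ.toInteger - 1) ^ k ∣ z' → (hζ.toInteger - 1) ^ (k + 1) ∣ z := by
  classical
  have hprime := hζ.zeta_sub_one_prime'
  have hζ' := hζ.toInteger_isPrimitiveRoot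
  obtain ⟨y₁, h₁, hsq⟩ := h.exists_sq_dvd hp2
  clear h
  obtain ⟨hx, hy, hz, hxy, ⟨z₁, hz₁⟩, ε, hε⟩ := id h₁
  have hdvd := fun η hη => h₁.dvd_add_mul hp2 (η := η) hη
  choose! a ha using hdvd
  have h1μ : (1 : 𝓞 K) ∈ nthRootsFinset p (1 : 𝓞 K) := one_mem_nthRootsFinset hp.out.pos
  have hζμ : hζ.toInteger ∈ nthRootsFinset p (1 : 𝓞 K) := by
    rw [mem_nthRootsFinset hp.out.pos]; exact hζ'.pow_eq_one
  have hζ2μ : hζ.toInteger ^ 2 ∈ nthRootsFinset p (1 : 𝓞 K) := by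
    rw [mem_nthRootsFinset hp.out.pos, ← pow_mul, mul_comm, pow_mul, hζ'.pow_eq_one, one_pow]
  have hp3 : 2 < p := lt_of_le_of_ne hp.out.two_le (Ne.symm hp2)
  have hζ1 : hζ.toInteger ≠ 1 := hζ'.ne_one hp.out.one_lt
  have hζ21 : hζ.toInteger ^ 2 ≠ 1 := hζ'.pow_ne_one_of_pos_of_lt (by norm_num) hp3
  have hζ2ζ : hζ.toInteger ^ 2 ≠ hζ.toInteger := by
    intro h; apply hζ1
    have : hζ.toInteger * hζ.toInteger = hζ.toInteger * 1 := by rw [mul_one, ← sq, h]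
    exact mul_left_cancel₀ (hζ'.ne_zero hp.out.ne_zero) this
  have hcop : ∀ η₁ ∈ nthRootsFinset p (1 : 𝓞 K), ∀ η₂ ∈ nthRootsFinset p (1 : 𝓞 K),
      η₁ ≠ η₂ → IsCoprime (a η₁) (a η₂) :=
    fun η₁ h₁' η₂ h₂' hne => isCoprime_of_ne (hζ := hζ) hxy ha h₁' h₂' hne
  rw [hz₁] at hε
  have hprod := prod_eq hp2 ha hε
  obtain ⟨ρ₀, u₀, h₀⟩ := exists_associated_pow hcop hprod h1μ
  obtain ⟨ρ₁, u₁, h₁'⟩ := exists_associated_pow hcop hprod hζμ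
  obtain ⟨ρ₂, u₂, h₂⟩ := exists_associated_pow hcop hprod hζ2μ
  have ha1 : (hζ.toInteger - 1) ∣ a 1 := by
    obtain ⟨c, hc⟩ := hsq
    have := ha 1 h1μ
    rw [one_mul, hc, sq, mul_assoc] at this
    exact ⟨c, (mul_left_cancel₀ hprime.ne_zero this).symm⟩
  have hρ₀ : (hζ.toInteger - 1) ∣ ρ₀ := by
    rw [← h₀] at ha1
    exact hprime.dvd_of_dvd_pow ((Units.dvd_mul_right).mp ha1)
  have hnd1 : ¬ (hζ.toInteger - 1) ∣ ρ₁ := by
    intro hd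
    apply not_dvd_of_ne_one (hζ := hζ) hy hsq ha hζμ hζ1
    rw [← h₁']
    exact dvd_mul_of_dvd_left (dvd_pow hd hp.out.ne_zero) _
  have hnd2 : ¬ (hζ.toInteger - 1) ∣ ρ₂ := by
    intro hd
    apply not_dvd_of_ne_one (hζ := hζ) hy hsq ha hζ2μ hζ21
    rw [← h₂]
    exact dvd_mul_of_dvd_left (dvd_pow hd hp.out.ne_zero) _
  have hrel : (1 + hζ.toInteger) * a hζ.toInteger - a (hζ.toInteger ^ 2) =
      hζ.toInteger * a 1 := by
    apply mul_left_cancel₀ hprime.ne_zero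
    linear_combination -(1 + hζ.toInteger) * ha _ hζμ + ha _ hζ2μ + hζ.toInteger * ha _ h1μ
  have hunit : IsUnit (1 + hζ.toInteger) := by
    have := hζ'.geom_sum_isUnit hp.out.two_le (j := 2)
      ((Nat.coprime_primes Nat.prime_two hp.out).mpr (Ne.symm hp2))
    simpa [Finset.sum_range_succ] using this
  obtain ⟨κ₀, hκ₀⟩ := hunit
  obtain ⟨ζu, hζu⟩ := hζ'.isUnit hp.out.ne_zero
  have heq : ρ₁ ^ p + ((-(u₂ * (κ₀ * u₁)⁻¹) : (𝓞 K)ˣ) : 𝓞 K) * ρ₂ ^ p =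
      ((ζu * u₀ * (κ₀ * u₁)⁻¹ : (𝓞 K)ˣ) : 𝓞 K) * ρ₀ ^ p := by
    rw [← h₀, ← h₁', ← h₂, ← hκ₀, ← hζu] at hrel
    have hκ : (((κ₀ * u₁)⁻¹ : (𝓞 K)ˣ) : 𝓞 K) * ((κ₀ : 𝓞 K) * (u₁ : 𝓞 K)) = 1 := by
      rw [← Units.val_mul, ← Units.val_mul, inv_mul_cancel, Units.val_one]
    simp only [Units.val_neg, Units.val_mul]
    linear_combination (((κ₀ * u₁)⁻¹ : (𝓞 K)ˣ) : 𝓞 K) * hrel - ρ₁ ^ p * hκ
  set η : (𝓞 K)ˣ := -(u₂ * (κ₀ * u₁)⁻¹) with hη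
  set ε' : (𝓞 K)ˣ := ζu * u₀ * (κ₀ * u₁)⁻¹ with hε'
  obtain ⟨n₁, hn₁, -⟩ := exists_int_pow_sub_dvd hζ ρ₁
  obtain ⟨n₂, hn₂, hn₂'⟩ := exists_int_pow_sub_dvd hζ ρ₂
  have hpn₂ : ¬ (p : ℤ) ∣ n₂ := fun hd => hnd2 (hn₂' hd)
  have hpρ₀ : (p : 𝓞 K) ∣ ρ₀ ^ p := by
    obtain ⟨w, hw⟩ := hρ₀
    rw [hw, mul_pow]
    exact dvd_mul_of_dvd_left (prime_dvd_pow_self hζ) _
  have hcong : (p : 𝓞 K) ∣ (n₁ : 𝓞 K) + η * n₂ := by
    have : (n₁ : 𝓞 K) + η * n₂ = ε' * ρ₀ ^ p - (ρ₁ ^ p - n₁) - η * (ρ₂ ^ p - n₂) := by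
      rw [← heq]; ring
    rw [this]
    exact dvd_sub (dvd_sub (dvd_mul_of_dvd_right hpρ₀ _) hn₁) (dvd_mul_of_dvd_right hn₂ _)
  obtain ⟨m, k, hmk⟩ : IsCoprime (p : ℤ) n₂ :=
    (Nat.prime_iff_prime_int.mp hp.out).coprime_iff_not_dvd.mpr hpn₂
  have hηn : ∃ n : ℤ, (p : 𝓞 K) ∣ (η : 𝓞 K) - n := by
    refine ⟨-(n₁ * k), ?_⟩
    have : (η : 𝓞 K) - ((-(n₁ * k) : ℤ) : 𝓞 K) =
        ((n₁ : 𝓞 K) + η * n₂) * k + (p : 𝓞 K) * (η * m) := by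
      have hmk' : (m : 𝓞 K) * p + k * n₂ = 1 := by
        exact_mod_cast congrArg (Int.cast : ℤ → 𝓞 K) hmk
      push_cast
      linear_combination (-(η : 𝓞 K)) * hmk'
    rw [this]
    exact dvd_add (dvd_mul_of_dvd_left hcong _) (dvd_mul_right _ _)
  obtain ⟨η₀, hη₀⟩ := hK η hηn
  refine ⟨ρ₁, η₀ * ρ₂, ρ₀, ⟨hnd1, ?_, ?_, ?_, hρ₀, ε', ?_⟩, ?_⟩
  · rwa [Units.dvd_mul_left]
  · rintro rfl
    apply hz
    rw [zero_pow hp.out.ne_zero, zero_mul] at h₀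
    have h0 : ∏ η ∈ nthRootsFinset p (1 : 𝓞 K), a η = 0 := Finset.prod_eq_zero h1μ h₀.symm
    rw [hprod] at h0
    have hz₁0 : z₁ = 0 := by simpa [hp.out.ne_zero] using h0
    rw [hz₁, hz₁0, mul_zero]
  · have hc := hcop _ hζμ _ hζ2μ hζ2ζ.symm
    rw [← h₁', ← h₂] at hc
    have hc2 : IsCoprime (ρ₁ ^ p) (ρ₂ ^ p) := (hc.of_mul_left_left).of_mul_right_left
    have hc3 : IsCoprime ρ₁ ρ₂ := (IsCoprime.pow_iff hp.out.pos hp.out.pos).mp hc2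
    exact (isCoprime_mul_unit_left_right η₀.isUnit _ _).2 hc3
  · rw [mul_pow, ← Units.val_pow_eq_pow_val, ← hη₀]; exact heq
  · intro k hk
    rw [hz₁, pow_succ']
    apply mul_dvd_mul_left
    have h3 : ((hζ.toInteger - 1) ^ k) ^ p ∣ z₁ ^ p := by
      have h4 : ((hζ.toInteger - 1) ^ k) ^ p ∣ a 1 := by
        rw [← h₀]; exact dvd_mul_of_dvd_left (pow_dvd_pow_of_dvd hk p) _
      have h5 : a 1 ∣ ε * z₁ ^ p := by rw [← hprod]; exact Finset.dvd_prod_of_mem a h1μ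
      exact (Units.dvd_mul_left).mp (h4.trans h5)
    exact (IsIntegrallyClosed.pow_dvd_pow_iff hp.out.ne_zero).mp h3

theorem IsSol.pow_dvd (hp2 : p ≠ 2) [IsPrincipalIdealRing (𝓞 K)] (hK : KummerLemma p K) :
    ∀ (n : ℕ) {x y z : 𝓞 K}, IsSol hζ x y z → (hζ.toInteger - 1) ^ n ∣ z
  | 0, _, _, _, _ => by simp
  | n + 1, _, _, _, h => by
      obtain ⟨x', y', z', h', hk⟩ := h.descent hp2 hK
      exact hk n (IsSol.pow_dvd hp2 hK n h')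

theorem not_isSol (hp2 : p ≠ 2) [IsPrincipalIdealRing (𝓞 K)] (hK : KummerLemma p K)
    {x y z : 𝓞 K} : ¬ IsSol hζ x y z := by
  intro h
  have hfin : FiniteMultiplicity (hζ.toInteger - 1) z :=
    FiniteMultiplicity.of_not_isUnit hζ.zeta_sub_one_prime'.not_isUnit h.2.2.1
  obtain ⟨n, hn⟩ := hfin
  exact hn (h.pow_dvd hp2 hK (n + 1))

variable (hζ)

/-- Case II of Fermat's Last Theorem for the generalised equation over `𝓞 K`, assuming that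
`𝓞 K` is a principal ideal domain and that Kummer's lemma holds. -/
theorem caseII_gen (hp2 : p ≠ 2) (hPID : IsPrincipalIdealRing (𝓞 K)) (hK : KummerLemma p K)
    (x y z : 𝓞 K) (ε : (𝓞 K)ˣ) (hz : z ≠ 0) (hx : ¬ (hζ.toInteger - 1) ∣ x)
    (hy : ¬ (hζ.toInteger - 1) ∣ y) (hzd : (hζ.toInteger - 1) ∣ z) (hxy : IsCoprime x y) :
    x ^ p + y ^ p ≠ ε * z ^ p :=
  fun h => not_isSol hp2 hK ⟨hx, hy, hz, hxy, hzd, ε, h⟩

end general

/-- Case II of Fermat's Last Theorem over `ℤ` for an odd prime `p`, assuming that the ring of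
integers of the `p`-th cyclotomic field `K` is a principal ideal domain and Kummer's lemma. -/
theorem caseII_int {p : ℕ} [hp : Fact p.Prime] (K : Type*) [Field K] [NumberField K]
    [IsCyclotomicExtension {p} ℚ K] (hp2 : p ≠ 2) (hPID : IsPrincipalIdealRing (𝓞 K))
    (hK : KummerLemma p K)
    (a b c : ℤ) (hc : c ≠ 0) (ha : ¬ (p : ℤ) ∣ a) (hb : ¬ (p : ℤ) ∣ b) (hcd : (p : ℤ) ∣ c)
    (hab : IsCoprime a b) : a ^ p + b ^ p ≠ c ^ p := by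
  intro h
  have hζ := IsCyclotomicExtension.zeta_spec p ℚ K
  refine caseII_gen hζ hp2 hPID hK a b c 1 (by exact_mod_cast hc) ?_ ?_ ?_
    (IsCoprime.intCast hab) ?_
  · rwa [IsCyclotomicExtension.Rat.zeta_sub_one_dvd_intCast_iff' p hζ]
  · rwa [IsCyclotomicExtension.Rat.zeta_sub_one_dvd_intCast_iff' p hζ]
  · rwa [IsCyclotomicExtension.Rat.zeta_sub_one_dvd_intCast_iff' p hζ]
  · have := congrArg (Int.cast : ℤ → 𝓞 K) h
    push_cast at this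
    simpa using this

end Fermat.Agent.S11
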