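import Mathlib
import Fermat.Agent.S11.Defs

set_option autoImplicit false
set_option linter.unusedSectionVars false

namespace Fermat.Agent.S11

open NumberField Polynomial Finset

section trunc

variable (p : ℕ) [hp : Fact p.Prime]

/-- The truncated polynomial ring `(ZMod p)[X] / (X ^ m)`. -/
abbrev TP (m : ℕ) : Type := (ZMod p)[X] ⧸ Ideal.span {(X : (ZMod p)[X]) ^ m}

/-- The quotient map onto the truncated polynomial ring. -/
noncomputable abbrev mkT (m : ℕ) : (ZMod p)[X] →+* TP p m := Ideal.Quotient.mk _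

variable {p}

lemma mkT_eq_zero_iff {m : ℕ} {f : (ZMod p)[X]} : mkT p m f = 0 ↔ X ^ m ∣ f := by
  rw [Ideal.Quotient.eq_zero_iff_mem, Ideal.mem_span_singleton]

lemma mkT_eq_iff {m : ℕ} {f g : (ZMod p)[X]} : mkT p m f = mkT p m g ↔ X ^ m ∣ f - g := by
  rw [← sub_eq_zero, ← map_sub, mkT_eq_zero_iff]

/-- The map induced by the derivative, `(ZMod p)[X] / (X ^ (m + 1)) → (ZMod p)[X] / (X ^ m)`. -/
noncomputable def der (m : ℕ) (u : TP p (m + 1)) : TP p m :=
  mkT p m (derivative (Quotient.out u))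

lemma der_mk (m : ℕ) (f : (ZMod p)[X]) :
    der m (mkT p (m + 1) f) = mkT p m (derivative f) := by
  unfold der
  rw [mkT_eq_iff]
  have h : mkT p (m + 1) (Quotient.out (mkT p (m + 1) f)) = mkT p (m + 1) f :=
    Ideal.Quotient.mk_out _
  rw [mkT_eq_iff] at h
  obtain ⟨g, hg⟩ := h
  rw [← derivative_sub, hg, derivative_mul, derivative_X_pow]
  refine ⟨C ((m + 1 : ℕ) : ZMod p) * g + X * derivative g, ?_⟩
  simp only [Nat.add_sub_cancel]
  ring

/-- The projection `(ZMod p)[X] / (X ^ (m + 1)) → (ZMod p)[X] / (X ^ m)`. -/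
noncomputable def proj (m : ℕ) : TP p (m + 1) →+* TP p m :=
  Ideal.Quotient.factor
    (Ideal.span_singleton_le_span_singleton.mpr (pow_dvd_pow X (Nat.le_succ m)))

lemma proj_mk (m : ℕ) (f : (ZMod p)[X]) : proj m (mkT p (m + 1) f) = mkT p m f :=
  Ideal.Quotient.factor_mk _ _

lemma der_mul (m : ℕ) (u v : TP p (m + 1)) :
    der m (u * v) = proj m u * der m v + der m u * proj m v := by
  obtain ⟨f, rfl⟩ := Ideal.Quotient.mk_surjective u
  obtain ⟨g, rfl⟩ := Ideal.Quotient.mk_surjective v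
  rw [← map_mul, der_mk, der_mk, der_mk, proj_mk, proj_mk, derivative_mul, map_add, map_mul,
    map_mul]
  ring

lemma der_intCast (m : ℕ) (n : ℤ) : der m ((n : ℤ) : TP p (m + 1)) = 0 := by
  have : ((n : ℤ) : TP p (m + 1)) = mkT p (m + 1) ((n : ℤ) : (ZMod p)[X]) := by
    rw [map_intCast]
  rw [this, der_mk, derivative_intCast, map_zero]

lemma der_one (m : ℕ) : der m (1 : TP p (m + 1)) = 0 := by
  have := der_intCast (p := p) m 1
  simpa using this

/-- The logarithmic derivative, as a group homomorphism from the units of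
`(ZMod p)[X] / (X ^ (m + 1))` to the additive group of `(ZMod p)[X] / (X ^ m)`. -/
noncomputable def logDer (m : ℕ) : (TP p (m + 1))ˣ →* Multiplicative (TP p m) where
  toFun u := Multiplicative.ofAdd
    (der m (u : TP p (m + 1)) * proj m ((u⁻¹ : (TP p (m + 1))ˣ) : TP p (m + 1)))
  map_one' := by simp [der_one]
  map_mul' u v := by
    rw [← ofAdd_add]
    congr 1
    have hinv : (u * v)⁻¹ = u⁻¹ * v⁻¹ := mul_inv u v
    rw [Units.val_mul, der_mul, hinv, Units.val_mul, map_mul]
    have hu : proj m (u : TP p (m + 1)) * proj m ((u⁻¹ : (TP p (m + 1))ˣ) : TP p (m + 1)) = 1 := by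
      rw [← map_mul, ← Units.val_mul, mul_inv_cancel, Units.val_one, map_one]
    have hv : proj m (v : TP p (m + 1)) * proj m ((v⁻¹ : (TP p (m + 1))ˣ) : TP p (m + 1)) = 1 := by
      rw [← map_mul, ← Units.val_mul, mul_inv_cancel, Units.val_one, map_one]
    linear_combination
      (der m (v : TP p (m + 1)) * proj m ((v⁻¹ : (TP p (m + 1))ˣ) : TP p (m + 1))) * hu +
      (der m (u : TP p (m + 1)) * proj m ((u⁻¹ : (TP p (m + 1))ˣ) : TP p (m + 1))) * hv

lemma logDer_apply (m : ℕ) (u : (TP p (m + 1))ˣ) :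
    Multiplicative.toAdd (logDer m u) =
      der m (u : TP p (m + 1)) * proj m ((u⁻¹ : (TP p (m + 1))ˣ) : TP p (m + 1)) := rfl

/-- If `u` is represented by the polynomial `f`, then `logDer u * f = f'`. -/
lemma logDer_mul_mk (m : ℕ) (u : (TP p (m + 1))ˣ) (f : (ZMod p)[X])
    (hf : (u : TP p (m + 1)) = mkT p (m + 1) f) :
    Multiplicative.toAdd (logDer m u) * mkT p m f = mkT p m (derivative f) := by
  have h1 : mkT p m f = proj m (u : TP p (m + 1)) := by rw [hf, proj_mk]
  rw [logDer_apply, h1, mul_assoc, ← map_mul, ← Units.val_mul, inv_mul_cancel, Units.val_one,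
    map_one, mul_one, hf, der_mk]

lemma geom_sum_one_add_X :
    ∑ i ∈ range p, (1 + X : (ZMod p)[X]) ^ i = X ^ (p - 1) := by
  have h := geom_sum_mul (1 + X : (ZMod p)[X]) p
  have h2 : (1 + X : (ZMod p)[X]) ^ p - 1 = X ^ p := by
    rw [add_pow_char]; simp
  have h3 : (1 + X : (ZMod p)[X]) - 1 = X := by ring
  rw [h2, h3, ← pow_sub_one_mul hp.out.ne_zero (X : (ZMod p)[X])] at h
  exact mul_right_cancel₀ X_ne_zero h

lemma natCast_self_TP (m : ℕ) : ((p : ℕ) : TP p m) = 0 := by
  have : ((p : ℕ) : TP p m) = mkT p m ((p : ℕ) : (ZMod p)[X]) := by rw [map_natCast]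
  rw [this, ← C_eq_natCast, ZMod.natCast_self, map_zero, map_zero]

end trunc

section cyclo

variable {p : ℕ} [hp : Fact p.Prime] {K : Type*} [Field K] [NumberField K]
  [IsCyclotomicExtension {p} ℚ K] {ζ : K} (hζ : IsPrimitiveRoot ζ p)

lemma aeval_one_add_X {m : ℕ} (hm : m + 2 = p) :
    aeval (mkT p (m + 1) (1 + X)) (minpoly ℤ hζ.integralPowerBasis.gen) = 0 := by
  rw [hζ.integralPowerBasis_gen, ← RingOfIntegers.minpoly_coe]
  change aeval (mkT p (m + 1) (1 + X)) (minpoly ℤ ζ) = 0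
  rw [← cyclotomic_eq_minpoly hζ hp.out.pos, cyclotomic_prime, map_sum]
  simp only [map_pow, aeval_X]
  have h : ∑ x ∈ range p, (mkT p (m + 1)) (1 + X) ^ x =
      mkT p (m + 1) (∑ x ∈ range p, (1 + X) ^ x) := by
    rw [map_sum]; simp only [map_pow]
  have h2 : p - 1 = m + 1 := by omega
  rw [h, geom_sum_one_add_X, mkT_eq_zero_iff, h2]

/-- The ring homomorphism `𝓞 K → (ZMod p)[X] / (X ^ (p - 1))` sending `ζ` to `1 + X`. -/
noncomputable def rho {m : ℕ} (hm : m + 2 = p) : 𝓞 K →+* TP p (m + 1) :=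
  (hζ.integralPowerBasis.lift (mkT p (m + 1) (1 + X)) (aeval_one_add_X hζ hm)).toRingHom

lemma rho_zeta {m : ℕ} (hm : m + 2 = p) : rho hζ hm hζ.toInteger = mkT p (m + 1) (1 + X) := by
  calc rho hζ hm hζ.toInteger = rho hζ hm hζ.integralPowerBasis.gen := by
        rw [hζ.integralPowerBasis_gen]
    _ = _ := PowerBasis.lift_gen _ _ _

/-- Kummer's logarithmic derivative on units. -/
noncomputable def kummerLog {m : ℕ} (hm : m + 2 = p) : (𝓞 K)ˣ →* Multiplicative (TP p m) :=
  (logDer m).comp (Units.map (rho hζ hm : 𝓞 K →* TP p (m + 1)))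

lemma rho_units_val {m : ℕ} (hm : m + 2 = p) (u : (𝓞 K)ˣ) :
    ((Units.map (rho hζ hm : 𝓞 K →* TP p (m + 1)) u : (TP p (m + 1))ˣ) : TP p (m + 1)) =
      rho hζ hm (u : 𝓞 K) := rfl

/-- Units congruent to a rational integer modulo `p` are killed by `kummerLog`. -/
lemma kummerLog_eq_one_of_dvd {m : ℕ} (hm : m + 2 = p) (u : (𝓞 K)ˣ) (n : ℤ)
    (h : (p : 𝓞 K) ∣ (u : 𝓞 K) - n) : kummerLog hζ hm u = 1 := by
  obtain ⟨c, hc⟩ := h
  have hu : rho hζ hm (u : 𝓞 K) = ((n : ℤ) : TP p (m + 1)) := by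
    have : (u : 𝓞 K) = n + p * c := by rw [← hc]; ring
    rw [this, map_add, map_mul, map_intCast, map_natCast, natCast_self_TP, zero_mul, add_zero]
  change Multiplicative.ofAdd (der m _ * _) = 1
  rw [rho_units_val, hu, der_intCast, zero_mul]
  rfl

/-- Kummer's lemma from the Dirichlet unit theorem, given enough units with linearly independent
logarithmic derivatives. -/
theorem kummerLemma_of_linearIndependent {m : ℕ} (hm : m + 2 = p) {n : ℕ}
    (w : Fin n → (𝓞 K)ˣ) (hn : Units.rank K + 1 ≤ n)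
    (hw : LinearIndependent (ZMod p) (fun i => Multiplicative.toAdd (kummerLog hζ hm (w i)))) :
    KummerLemma p K := by
  classical
  intro u ⟨nn, hu⟩
  obtain ⟨g₀, hg₀⟩ := IsCyclic.exists_generator (α := Units.torsion K)
  let G : Option (Fin (Units.rank K)) → (𝓞 K)ˣ :=
    fun o => o.elim (g₀ : (𝓞 K)ˣ) (Units.fundSystem K)
  have hgen : ∀ x : (𝓞 K)ˣ, ∃ e : Option (Fin (Units.rank K)) → ℤ, x = ∏ j, G j ^ e j := by
    intro x
    obtain ⟨⟨t, e⟩, hx, -⟩ := Units.exist_unique_eq_mul_prod K x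
    obtain ⟨k, hk⟩ := Subgroup.mem_zpowers_iff.mp (hg₀ t)
    refine ⟨fun o => o.elim k e, ?_⟩
    rw [Fintype.prod_option]
    simp only [G, Option.elim]
    rw [hx, ← hk]
    simp
  let v : Option (Fin (Units.rank K)) → TP p m :=
    fun j => Multiplicative.toAdd (kummerLog hζ hm (G j))
  have hLx : ∀ (x : (𝓞 K)ˣ) (e : Option (Fin (Units.rank K)) → ℤ), x = ∏ j, G j ^ e j →
      Multiplicative.toAdd (kummerLog hζ hm x) = ∑ j, (e j : ZMod p) • v j := by
    intro x e hx
    rw [hx, map_prod, toAdd_prod]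
    refine Finset.sum_congr rfl fun j _ => ?_
    rw [map_zpow, toAdd_zpow, Int.cast_smul_eq_zsmul]
  have hv : LinearIndependent (ZMod p) v := by
    rw [linearIndependent_iff_card_le_finrank_span]
    have hmem : ∀ i, Multiplicative.toAdd (kummerLog hζ hm (w i)) ∈
        Submodule.span (ZMod p) (Set.range v) := by
      intro i
      obtain ⟨e, he⟩ := hgen (w i)
      rw [hLx _ e he]
      exact Submodule.sum_mem _ fun j _ =>
        Submodule.smul_mem _ _ (Submodule.subset_span ⟨j, rfl⟩)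
    have hw' : LinearIndependent (ZMod p)
        (fun i => (⟨_, hmem i⟩ : Submodule.span (ZMod p) (Set.range v))) := by
      apply LinearIndependent.of_comp (Submodule.span (ZMod p) (Set.range v)).subtype
      exact hw
    have hfin : Module.Finite (ZMod p) (Submodule.span (ZMod p) (Set.range v)) :=
      Module.Finite.span_of_finite _ (Set.finite_range v)
    have h1 := hw'.fintype_card_le_finrank
    simp only [Fintype.card_fin] at h1
    simp only [Fintype.card_option, Fintype.card_fin]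
    exact hn.trans h1
  obtain ⟨e, he⟩ := hgen u
  have h0 : Multiplicative.toAdd (kummerLog hζ hm u) = 0 := by
    rw [kummerLog_eq_one_of_dvd hζ hm u nn hu]; rfl
  rw [hLx u e he] at h0
  have he0 := Fintype.linearIndependent_iff.mp hv (fun j => (e j : ZMod p)) h0
  have hdiv : ∀ j, ∃ f : ℤ, e j = p * f :=
    fun j => (ZMod.intCast_zmod_eq_zero_iff_dvd _ _).mp (he0 j)
  choose f hf using hdiv
  refine ⟨∏ j, G j ^ f j, ?_⟩
  rw [he, ← Finset.prod_pow]
  refine Finset.prod_congr rfl fun j _ => ?_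
  rw [hf j, mul_comm, zpow_mul, zpow_natCast]

end cyclo

end Fermat.Agent.S11
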