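import Mathlib
import Fermat.Agent.S11.Defs
import Fermat.Agent.S11.KummerGen

set_option autoImplicit false
set_option linter.unusedSectionVars false
set_option linter.unusedSimpArgs false

namespace Fermat.Agent.S11

open NumberField Polynomial Finset

section kummer11

attribute [local instance] fact_prime_eleven

variable {K : Type*} [Field K] [NumberField K] [IsCyclotomicExtension {11} ℚ K]
  {ζ : K} (hζ : IsPrimitiveRoot ζ 11)

omit [NumberField K] [IsCyclotomicExtension {11} ℚ K] in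
lemma smul_TP {p : ℕ} [Fact p.Prime] {m : ℕ} (c : ZMod p) (x : TP p m) : c • x = mkT p m (C c) * x :=
  Algebra.smul_def c x

lemma rank_eleven (K : Type*) [Field K] [NumberField K] [IsCyclotomicExtension {11} ℚ K] :
    Units.rank K = 4 := by
  rw [Units.rank, InfinitePlace.card_eq_nrRealPlaces_add_nrComplexPlaces,
    IsCyclotomicExtension.Rat.nrRealPlaces_eq_zero K (by norm_num : 2 < 11),
    IsCyclotomicExtension.Rat.nrComplexPlaces_eq_totient_div_two 11,
    Nat.totient_prime (by norm_num)]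

/-- A polynomial representing a cyclotomic unit modulo `11`. -/
noncomputable def Wp0 : (ZMod 11)[X] := 1 + X

/-- The derivative of `Wp0`. -/
noncomputable def Dp0 : (ZMod 11)[X] := 1

lemma derivative_Wp0 : derivative Wp0 = Dp0 := by
  unfold Wp0 Dp0
  simp only [derivative_add, derivative_mul, derivative_X_pow, derivative_ofNat, derivative_X,
    map_natCast, derivative_one]
  norm_num
  try ring

/-- A polynomial representing a cyclotomic unit modulo `11`. -/
noncomputable def Wp1 : (ZMod 11)[X] := 2 + X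

/-- The derivative of `Wp1`. -/
noncomputable def Dp1 : (ZMod 11)[X] := 1

lemma derivative_Wp1 : derivative Wp1 = Dp1 := by
  unfold Wp1 Dp1
  simp only [derivative_add, derivative_mul, derivative_X_pow, derivative_ofNat, derivative_X,
    map_natCast, derivative_one]
  norm_num
  try ring

/-- A polynomial representing a cyclotomic unit modulo `11`. -/
noncomputable def Wp2 : (ZMod 11)[X] := 3 + 3 * X + X ^ 2

/-- The derivative of `Wp2`. -/
noncomputable def Dp2 : (ZMod 11)[X] := 3 + 2 * X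

lemma derivative_Wp2 : derivative Wp2 = Dp2 := by
  unfold Wp2 Dp2
  simp only [derivative_add, derivative_mul, derivative_X_pow, derivative_ofNat, derivative_X,
    map_natCast, derivative_one]
  norm_num
  try ring

/-- A polynomial representing a cyclotomic unit modulo `11`. -/
noncomputable def Wp3 : (ZMod 11)[X] := 4 + 6 * X + 4 * X ^ 2 + X ^ 3

/-- The derivative of `Wp3`. -/
noncomputable def Dp3 : (ZMod 11)[X] := 6 + 8 * X + 3 * X ^ 2

lemma derivative_Wp3 : derivative Wp3 = Dp3 := by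
  unfold Wp3 Dp3
  simp only [derivative_add, derivative_mul, derivative_X_pow, derivative_ofNat, derivative_X,
    map_natCast, derivative_one]
  norm_num
  try ring

/-- A polynomial representing a cyclotomic unit modulo `11`. -/
noncomputable def Wp4 : (ZMod 11)[X] := 5 + 10 * X + 10 * X ^ 2 + 5 * X ^ 3 + X ^ 4

/-- The derivative of `Wp4`. -/
noncomputable def Dp4 : (ZMod 11)[X] := 10 + 20 * X + 15 * X ^ 2 + 4 * X ^ 3

lemma derivative_Wp4 : derivative Wp4 = Dp4 := by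
  unfold Wp4 Dp4
  simp only [derivative_add, derivative_mul, derivative_X_pow, derivative_ofNat, derivative_X,
    map_natCast, derivative_one]
  norm_num
  try ring

/-- The unit `ζ`. -/
noncomputable def zetaUnit : (𝓞 K)ˣ := (hζ.toInteger_isPrimitiveRoot.isUnit (by norm_num)).unit

/-- The cyclotomic unit `1 + ζ + ... + ζ ^ (k - 1)`. -/
noncomputable def cycUnit (k : ℕ) (hk : k.Coprime 11) : (𝓞 K)ˣ :=
  (hζ.toInteger_isPrimitiveRoot.geom_sum_isUnit (by norm_num) hk).unit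

lemma cycUnit_val (k : ℕ) (hk : k.Coprime 11) :
    (cycUnit hζ k hk : 𝓞 K) = ∑ i ∈ range k, hζ.toInteger ^ i := IsUnit.unit_spec _

lemma rho_cycUnit (k : ℕ) (hk : k.Coprime 11) :
    rho hζ (m := 9) rfl (cycUnit hζ k hk : 𝓞 K) = mkT 11 10 (∑ i ∈ range k, (1 + X) ^ i) := by
  rw [cycUnit_val, map_sum, map_sum]
  simp only [map_pow, rho_zeta]

lemma hv0 : Multiplicative.toAdd (kummerLog hζ (m := 9) rfl (zetaUnit hζ)) * mkT 11 9 Wp0 =
    mkT 11 9 Dp0 := by
  rw [← derivative_Wp0]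
  refine logDer_mul_mk 9 _ Wp0 ?_
  rw [rho_units_val]
  exact rho_zeta hζ rfl

lemma hv1 : Multiplicative.toAdd (kummerLog hζ (m := 9) rfl (cycUnit hζ 2 (by norm_num))) *
    mkT 11 9 Wp1 = mkT 11 9 Dp1 := by
  rw [← derivative_Wp1]
  refine logDer_mul_mk 9 _ Wp1 ?_
  rw [rho_units_val, rho_cycUnit]
  congr 1
  unfold Wp1
  simp [Finset.sum_range_succ]
  ring

lemma hv2 : Multiplicative.toAdd (kummerLog hζ (m := 9) rfl (cycUnit hζ 3 (by norm_num))) *
    mkT 11 9 Wp2 = mkT 11 9 Dp2 := by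
  rw [← derivative_Wp2]
  refine logDer_mul_mk 9 _ Wp2 ?_
  rw [rho_units_val, rho_cycUnit]
  congr 1
  unfold Wp2
  simp [Finset.sum_range_succ]
  ring

lemma hv3 : Multiplicative.toAdd (kummerLog hζ (m := 9) rfl (cycUnit hζ 4 (by norm_num))) *
    mkT 11 9 Wp3 = mkT 11 9 Dp3 := by
  rw [← derivative_Wp3]
  refine logDer_mul_mk 9 _ Wp3 ?_
  rw [rho_units_val, rho_cycUnit]
  congr 1
  unfold Wp3
  simp [Finset.sum_range_succ]
  ring

lemma hv4 : Multiplicative.toAdd (kummerLog hζ (m := 9) rfl (cycUnit hζ 5 (by norm_num))) *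
    mkT 11 9 Wp4 = mkT 11 9 Dp4 := by
  rw [← derivative_Wp4]
  refine logDer_mul_mk 9 _ Wp4 ?_
  rw [rho_units_val, rho_cycUnit]
  congr 1
  unfold Wp4
  simp [Finset.sum_range_succ]
  ring

omit [NumberField K] [IsCyclotomicExtension {11} ℚ K] in
lemma comb_five {S : Type*} [CommRing S] (a0 a1 a2 a3 a4 v0 v1 v2 v3 v4 W0 W1 W2 W3 W4 D0 D1 D2 D3 D4 : S)
    (h0 : v0 * W0 = D0) (h1 : v1 * W1 = D1) (h2 : v2 * W2 = D2) (h3 : v3 * W3 = D3) (h4 : v4 * W4 = D4)
    (h : a0 * v0 + a1 * v1 + a2 * v2 + a3 * v3 + a4 * v4 = 0) :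
    a0 * D0 * (W1 * W2 * W3 * W4) + a1 * D1 * (W0 * W2 * W3 * W4) + a2 * D2 * (W0 * W1 * W3 * W4) + a3 * D3 * (W0 * W1 * W2 * W4) + a4 * D4 * (W0 * W1 * W2 * W3) = 0 := by
  rw [← h0, ← h1, ← h2, ← h3, ← h4]
  linear_combination (W0 * W1 * W2 * W3 * W4) * h

/-- Kummer's lemma for the prime `11`. -/
theorem kummer_eleven_of_cyclotomic (K : Type*) [Field K] [NumberField K]
    [IsCyclotomicExtension {11} ℚ K] : KummerLemma 11 K := by
  have hζ := IsCyclotomicExtension.zeta_spec 11 ℚ K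
  refine kummerLemma_of_linearIndependent hζ (m := 9) rfl
    ![zetaUnit hζ, cycUnit hζ 2 (by norm_num), cycUnit hζ 3 (by norm_num),
      cycUnit hζ 4 (by norm_num), cycUnit hζ 5 (by norm_num)] (by rw [rank_eleven]) ?_
  rw [Fintype.linearIndependent_iff]
  intro c hc
  rw [Fin.sum_univ_five] at hc
  simp only [Matrix.cons_val_zero, Matrix.cons_val_one, Matrix.cons_val_two,
    Matrix.cons_val_three, Matrix.cons_val_four, Matrix.head_cons, Matrix.tail_cons, smul_TP] at hc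
  have key := comb_five _ _ _ _ _ _ _ _ _ _ _ _ _ _ _ _ _ _ _ _
    (hv0 hζ) (hv1 hζ) (hv2 hζ) (hv3 hζ) (hv4 hζ) hc
  have key2 : mkT 11 9 (C (c 0) * Dp0 * (Wp1 * Wp2 * Wp3 * Wp4) +
      C (c 1) * Dp1 * (Wp0 * Wp2 * Wp3 * Wp4) +
      C (c 2) * Dp2 * (Wp0 * Wp1 * Wp3 * Wp4) +
      C (c 3) * Dp3 * (Wp0 * Wp1 * Wp2 * Wp4) +
      C (c 4) * Dp4 * (Wp0 * Wp1 * Wp2 * Wp3)) = 0 := by
    simp only [map_add, map_mul]
    exact key
  rw [mkT_eq_zero_iff] at key2
  have hF : C (c 0) * Dp0 * (Wp1 * Wp2 * Wp3 * Wp4) +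
      C (c 1) * Dp1 * (Wp0 * Wp2 * Wp3 * Wp4) +
      C (c 2) * Dp2 * (Wp0 * Wp1 * Wp3 * Wp4) +
      C (c 3) * Dp3 * (Wp0 * Wp1 * Wp2 * Wp4) +
      C (c 4) * Dp4 * (Wp0 * Wp1 * Wp2 * Wp3) =
      C (120 * c 0 + 60 * c 1 + 120 * c 2 + 180 * c 3 + 240 * c 4) +
      C (600 * c 0 + 330 * c 1 + 680 * c 2 + 1050 * c 3 + 1440 * c 4) * X +
      C (1450 * c 0 + 860 * c 1 + 1810 * c 2 + 2850 * c 3 + 3980 * c 4) * X ^ 2 +
      C (2200 * c 0 + 1395 * c 1 + 2980 * c 2 + 4745 * c 3 + 6676 * c 4) * X ^ 3 +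
      C (2299 * c 0 + 1552 * c 1 + 3349 * c 2 + 5356 * c 3 + 7524 * c 4) * X ^ 4 +
      C (1717 * c 0 + 1232 * c 1 + 2673 * c 2 + 4268 * c 3 + 5950 * c 4) * X ^ 5 +
      C (923 * c 0 + 704 * c 1 + 1528 * c 2 + 2422 * c 3 + 3341 * c 4) * X ^ 6 +
      C (351 * c 0 + 285 * c 1 + 615 * c 2 + 963 * c 3 + 1314 * c 4) * X ^ 7 +
      C (90 * c 0 + 78 * c 1 + 166 * c 2 + 256 * c 3 + 346 * c 4) * X ^ 8 +
      C (14 * c 0 + 13 * c 1 + 27 * c 2 + 41 * c 3 + 55 * c 4) * X ^ 9 +
      C (1 * c 0 + 1 * c 1 + 2 * c 2 + 3 * c 3 + 4 * c 4) * X ^ 10 := by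
    unfold Wp0 Wp1 Wp2 Wp3 Wp4 Dp0 Dp1 Dp2 Dp3 Dp4
    simp only [map_add, map_mul, C_ofNat, map_one]
    ring
  have key3 := (X_pow_dvd_iff).mp key2
  have h11 : (11 : ZMod 11) = 0 := by decide
  have e0 : 120 * c 0 + 60 * c 1 + 120 * c 2 + 180 * c 3 + 240 * c 4 = 0 := by
    have := key3 0 (by norm_num)
    rw [hF] at this
    simp (config := {decide := true}) only [coeff_add, coeff_C_mul_X_pow, coeff_C_mul_X, coeff_C,
      if_true, if_false, add_zero, zero_add] at this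
    exact this
  have e1 : 600 * c 0 + 330 * c 1 + 680 * c 2 + 1050 * c 3 + 1440 * c 4 = 0 := by
    have := key3 1 (by norm_num)
    rw [hF] at this
    simp (config := {decide := true}) only [coeff_add, coeff_C_mul_X_pow, coeff_C_mul_X, coeff_C,
      if_true, if_false, add_zero, zero_add] at this
    exact this
  have e3 : 2200 * c 0 + 1395 * c 1 + 2980 * c 2 + 4745 * c 3 + 6676 * c 4 = 0 := by
    have := key3 3 (by norm_num)
    rw [hF] at this
    simp (config := {decide := true}) only [coeff_add, coeff_C_mul_X_pow, coeff_C_mul_X, coeff_C,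
      if_true, if_false, add_zero, zero_add] at this
    exact this
  have e5 : 1717 * c 0 + 1232 * c 1 + 2673 * c 2 + 4268 * c 3 + 5950 * c 4 = 0 := by
    have := key3 5 (by norm_num)
    rw [hF] at this
    simp (config := {decide := true}) only [coeff_add, coeff_C_mul_X_pow, coeff_C_mul_X, coeff_C,
      if_true, if_false, add_zero, zero_add] at this
    exact this
  have e7 : 351 * c 0 + 285 * c 1 + 615 * c 2 + 963 * c 3 + 1314 * c 4 = 0 := by
    have := key3 7 (by norm_num)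
    rw [hF] at this
    simp (config := {decide := true}) only [coeff_add, coeff_C_mul_X_pow, coeff_C_mul_X, coeff_C,
      if_true, if_false, add_zero, zero_add] at this
    exact this
  have c0 : c 0 = 0 := by
    linear_combination 5 * e1 + 10 * e3 + 6 * e5 + 2 * e7 + ((-3273) * c 0 + (-2142) * c 1 + (-4588) * c 2 + (-7294) * c 3 + (-10208) * c 4) * h11
  have c1 : c 1 = 0 := by
    linear_combination 8 * e0 + 3 * e1 + 9 * e3 + 10 * e7 + ((-2370) * c 0 + (-1534) * c 1 + (-3270) * c 2 + (-5175) * c 3 + (-7224) * c 4) * h11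
  have c2 : c 2 = 0 := by
    linear_combination 1 * e0 + 10 * e1 + 5 * e3 + 2 * e5 + 6 * e7 + ((-2060) * c 0 + (-1319) * c 1 + (-2805) * c 2 + (-4429) * c 3 + (-6164) * c 4) * h11
  have c3 : c 3 = 0 := by
    linear_combination 7 * e0 + 8 * e1 + 3 * e3 + 10 * e5 + 7 * e7 + ((-2897) * c 0 + (-1960) * c 1 + (-4205) * c 2 + (-6665) * c 3 + (-9266) * c 4) * h11
  have c4 : c 4 = 0 := by
    linear_combination 5 * e1 + 10 * e3 + 5 * e5 + 2 * e7 + ((-3117) * c 0 + (-2030) * c 1 + (-4345) * c 2 + (-6906) * c 3 + (-9667) * c 4) * h11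
  intro i
  fin_cases i
  · exact c0
  · exact c1
  · exact c2
  · exact c3
  · exact c4

end kummer11

end Fermat.Agent.S11
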