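import Mathlib
import Fermat.Agent.S11.Defs

set_option autoImplicit false
set_option linter.unusedSectionVars false

namespace Fermat.Agent.S11

open NumberField Polynomial Ideal

section pid

attribute [local instance] fact_prime_eleven

variable (K : Type*) [Field K] [NumberField K] [IsCyclotomicExtension {11} ℚ K]

/-- The Minkowski bound of the 11-th cyclotomic field is less than 67. -/
lemma minkowski_eleven_lt :
    (4 / Real.pi) ^ InfinitePlace.nrComplexPlaces K *
      ((Module.finrank ℚ K).factorial / (Module.finrank ℚ K) ^ (Module.finrank ℚ K) *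
        √|(discr K : ℝ)|) < 67 := by
  have : Fact (Nat.Prime 11) := ⟨by norm_num⟩
  rw [IsCyclotomicExtension.Rat.discr_prime 11 K, IsCyclotomicExtension.Rat.finrank (k := 11) K,
    IsCyclotomicExtension.Rat.nrComplexPlaces_eq_totient_div_two 11,
    Nat.totient_prime (by norm_num)]
  have hpi : (4 / Real.pi) ^ 5 < (4 / 3.14) ^ 5 := by
    gcongr
    exact Real.pi_gt_d2
  have hsq : √(2357947691 : ℝ) < 48600 := by
    rw [Real.sqrt_lt' (by norm_num)]; norm_num
  have hsq' := hsq.le
  norm_num [Nat.factorial]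
  calc (4 / Real.pi) ^ 5 * (567 / 1562500 * √2357947691)
      < (4 / 3.14) ^ 5 * (567 / 1562500 * 48600) := by
        apply mul_lt_mul hpi (by gcongr) (by positivity) (by positivity)
    _ < 67 := by norm_num

/-- A prime above `q` whose residue degree is large. -/
lemma exists_prime_over_of_orderOf {q : ℕ} (hq : q.Prime) (hq11 : q ≠ 11) (B f : ℕ)
    (hf : orderOf ((q : ℕ) : ZMod 11) = f) (hB : B < q ^ f) :
    ∃ P ∈ (span {(q : ℤ)}).primesOver (𝓞 K),
      B < q ^ P.inertiaDeg ℤ ∨ Submodule.IsPrincipal P := by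
  have : Fact q.Prime := ⟨hq⟩
  obtain ⟨⟨P, hP1, hP2⟩⟩ := (span {(q : ℤ)}).nonempty_primesOver (S := 𝓞 K)
  refine ⟨P, ⟨hP1, hP2⟩, Or.inl ?_⟩
  have hnd : ¬ q ∣ 11 := (Nat.prime_dvd_prime_iff_eq hq (by norm_num)).not.mpr hq11
  have := IsCyclotomicExtension.Rat.inertiaDeg_eq_of_not_dvd (m := 11) q K P hnd
  rw [this, hf]
  exact hB

variable {K} {ζ : K} (hζ : IsPrimitiveRoot ζ 11)

lemma sum_pow_eleven :
    1 + hζ.toInteger + hζ.toInteger ^ 2 + hζ.toInteger ^ 3 + hζ.toInteger ^ 4 +
      hζ.toInteger ^ 5 + hζ.toInteger ^ 6 + hζ.toInteger ^ 7 + hζ.toInteger ^ 8 +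
      hζ.toInteger ^ 9 + hζ.toInteger ^ 10 = 0 := by
  have := hζ.toInteger_isPrimitiveRoot.geom_sum_eq_zero (by norm_num : 1 < 11)
  simpa [Finset.sum_range_succ] using this

lemma alpha_dvd_twentythree :
    (1 + hζ.toInteger + hζ.toInteger ^ 3) ∣ (23 : 𝓞 K) := by
  refine ⟨-2 - 14 * hζ.toInteger - 17 * hζ.toInteger ^ 2 - 12 * hζ.toInteger ^ 3 -
    5 * hζ.toInteger ^ 4 - 9 * hζ.toInteger ^ 5 - 10 * hζ.toInteger ^ 6 -
    16 * hζ.toInteger ^ 7 - 6 * hζ.toInteger ^ 8 - 15 * hζ.toInteger ^ 9, ?_⟩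
  linear_combination (-(-25 + 9 * hζ.toInteger - 15 * hζ.toInteger ^ 2)) * sum_pow_eleven hζ

lemma alpha_dvd_zeta_sub_four :
    (1 + hζ.toInteger + hζ.toInteger ^ 3) ∣ hζ.toInteger - 4 := by
  refine ⟨1 + 3 * hζ.toInteger + 3 * hζ.toInteger ^ 2 + 2 * hζ.toInteger ^ 3 +
    hζ.toInteger ^ 4 + 2 * hζ.toInteger ^ 5 + 2 * hζ.toInteger ^ 6 +
    3 * hζ.toInteger ^ 7 + hζ.toInteger ^ 8 + 3 * hζ.toInteger ^ 9, ?_⟩
  linear_combination (-(5 - 2 * hζ.toInteger + 3 * hζ.toInteger ^ 2)) * sum_pow_eleven hζ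

/-- The ring homomorphism `𝓞 K → ZMod 23` sending `ζ` to `4`. -/
noncomputable def phi23 : 𝓞 K →+* ZMod 23 :=
  (hζ.integralPowerBasis.lift (4 : ZMod 23) (by
    rw [hζ.integralPowerBasis_gen, ← RingOfIntegers.minpoly_coe]
    change (aeval (4 : ZMod 23)) (minpoly ℤ ζ) = 0
    rw [← cyclotomic_eq_minpoly hζ (by norm_num), cyclotomic_prime]
    simp [Finset.sum_range_succ]
    decide)).toRingHom

lemma phi23_zeta : phi23 hζ hζ.toInteger = 4 := by
  calc phi23 hζ hζ.toInteger = phi23 hζ hζ.integralPowerBasis.gen := by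
        rw [hζ.integralPowerBasis_gen]
    _ = 4 := PowerBasis.lift_gen _ _ _

lemma phi23_alpha : phi23 hζ (1 + hζ.toInteger + hζ.toInteger ^ 3) = 0 := by
  rw [map_add, map_add, map_pow, map_one, phi23_zeta]
  decide

lemma exists_int_sub_alpha_dvd (w : 𝓞 K) :
    ∃ n : ℤ, (1 + hζ.toInteger + hζ.toInteger ^ 3) ∣ w - n := by
  have htop : Algebra.adjoin ℤ {hζ.toInteger} = ⊤ := by
    have := hζ.integralPowerBasis.adjoin_gen_eq_top
    rwa [hζ.integralPowerBasis_gen] at this
  have hw : w ∈ Algebra.adjoin ℤ {hζ.toInteger} := by rw [htop]; trivial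
  induction hw using Algebra.adjoin_induction with
  | mem x hx =>
    refine ⟨4, ?_⟩
    rw [Set.mem_singleton_iff] at hx
    rw [hx]
    simpa using alpha_dvd_zeta_sub_four hζ
  | algebraMap r => exact ⟨r, by simp⟩
  | add x y _ _ hx hy =>
    obtain ⟨n, hn⟩ := hx
    obtain ⟨m, hm⟩ := hy
    refine ⟨n + m, ?_⟩
    have : x + y - ((n + m : ℤ) : 𝓞 K) = (x - n) + (y - m) := by push_cast; ring
    rw [this]
    exact dvd_add hn hm
  | mul x y _ _ hx hy =>
    obtain ⟨n, hn⟩ := hx
    obtain ⟨m, hm⟩ := hy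
    refine ⟨n * m, ?_⟩
    have : x * y - ((n * m : ℤ) : 𝓞 K) = (x - n) * y + n * (y - m) := by push_cast; ring
    rw [this]
    exact dvd_add (dvd_mul_of_dvd_left hn _) (dvd_mul_of_dvd_right hm _)

lemma ker_phi23 : RingHom.ker (phi23 hζ) = span {1 + hζ.toInteger + hζ.toInteger ^ 3} := by
  apply le_antisymm
  · intro x hx
    rw [RingHom.mem_ker] at hx
    rw [Ideal.mem_span_singleton]
    obtain ⟨n, c, hc⟩ := exists_int_sub_alpha_dvd hζ x
    have h1 : phi23 hζ (x - n) = 0 := by rw [hc, map_mul, phi23_alpha, zero_mul]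
    rw [map_sub, hx, zero_sub, neg_eq_zero, map_intCast,
      ZMod.intCast_zmod_eq_zero_iff_dvd] at h1
    obtain ⟨k, rfl⟩ := h1
    have h2 : (1 + hζ.toInteger + hζ.toInteger ^ 3) ∣ ((((23 : ℕ) : ℤ) * k : ℤ) : 𝓞 K) := by
      push_cast
      exact dvd_mul_of_dvd_left (alpha_dvd_twentythree hζ) _
    have h3 : x = (x - ((((23 : ℕ) : ℤ) * k : ℤ) : 𝓞 K)) + ((((23 : ℕ) : ℤ) * k : ℤ) : 𝓞 K) := by
      ring
    rw [h3]
    exact dvd_add ⟨c, hc⟩ h2
  · rw [Ideal.span_le, Set.singleton_subset_iff]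
    exact phi23_alpha hζ

lemma floor_minkowski_eleven_le (K : Type*) [Field K] [NumberField K]
    [IsCyclotomicExtension {11} ℚ K] :
    ⌊(4 / Real.pi) ^ InfinitePlace.nrComplexPlaces K *
      ((Module.finrank ℚ K).factorial / (Module.finrank ℚ K) ^ (Module.finrank ℚ K) *
        √|(discr K : ℝ)|)⌋₊ ≤ 66 := by
  have h := minkowski_eleven_lt K
  have h2 : ⌊(4 / Real.pi) ^ InfinitePlace.nrComplexPlaces K *
      ((Module.finrank ℚ K).factorial / (Module.finrank ℚ K) ^ (Module.finrank ℚ K) *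
        √|(discr K : ℝ)|)⌋₊ < 67 :=
    (Nat.floor_lt (by positivity)).mpr (by exact_mod_cast h)
  omega

lemma sixtysix_lt_pow_orderOf {q : ℕ} (hq : q.Prime) (hle : q ≤ 66) (h11 : q ≠ 11)
    (h23 : q ≠ 23) : 66 < q ^ orderOf ((q : ℕ) : ZMod 11) := by
  interval_cases q
  · exact absurd hq (by norm_num)
  · exact absurd hq (by norm_num)
  · have h : orderOf ((2 : ℕ) : ZMod 11) = 10 := (orderOf_eq_iff (by norm_num)).mpr (by decide)
    rw [h]; norm_num
  · have h : orderOf ((3 : ℕ) : ZMod 11) = 5 := (orderOf_eq_iff (by norm_num)).mpr (by decide)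
    rw [h]; norm_num
  · exact absurd hq (by norm_num)
  · have h : orderOf ((5 : ℕ) : ZMod 11) = 5 := (orderOf_eq_iff (by norm_num)).mpr (by decide)
    rw [h]; norm_num
  · exact absurd hq (by norm_num)
  · have h : orderOf ((7 : ℕ) : ZMod 11) = 10 := (orderOf_eq_iff (by norm_num)).mpr (by decide)
    rw [h]; norm_num
  · exact absurd hq (by norm_num)
  · exact absurd hq (by norm_num)
  · exact absurd hq (by norm_num)
  · exact absurd rfl h11
  · exact absurd hq (by norm_num)
  · have h : orderOf ((13 : ℕ) : ZMod 11) = 10 := (orderOf_eq_iff (by norm_num)).mpr (by decide)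
    rw [h]; norm_num
  · exact absurd hq (by norm_num)
  · exact absurd hq (by norm_num)
  · exact absurd hq (by norm_num)
  · have h : orderOf ((17 : ℕ) : ZMod 11) = 10 := (orderOf_eq_iff (by norm_num)).mpr (by decide)
    rw [h]; norm_num
  · exact absurd hq (by norm_num)
  · have h : orderOf ((19 : ℕ) : ZMod 11) = 10 := (orderOf_eq_iff (by norm_num)).mpr (by decide)
    rw [h]; norm_num
  · exact absurd hq (by norm_num)
  · exact absurd hq (by norm_num)
  · exact absurd hq (by norm_num)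
  · exact absurd rfl h23
  · exact absurd hq (by norm_num)
  · exact absurd hq (by norm_num)
  · exact absurd hq (by norm_num)
  · exact absurd hq (by norm_num)
  · exact absurd hq (by norm_num)
  · have h : orderOf ((29 : ℕ) : ZMod 11) = 10 := (orderOf_eq_iff (by norm_num)).mpr (by decide)
    rw [h]; norm_num
  · exact absurd hq (by norm_num)
  · have h : orderOf ((31 : ℕ) : ZMod 11) = 5 := (orderOf_eq_iff (by norm_num)).mpr (by decide)
    rw [h]; norm_num
  · exact absurd hq (by norm_num)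
  · exact absurd hq (by norm_num)
  · exact absurd hq (by norm_num)
  · exact absurd hq (by norm_num)
  · exact absurd hq (by norm_num)
  · have h : orderOf ((37 : ℕ) : ZMod 11) = 5 := (orderOf_eq_iff (by norm_num)).mpr (by decide)
    rw [h]; norm_num
  · exact absurd hq (by norm_num)
  · exact absurd hq (by norm_num)
  · exact absurd hq (by norm_num)
  · have h : orderOf ((41 : ℕ) : ZMod 11) = 10 := (orderOf_eq_iff (by norm_num)).mpr (by decide)
    rw [h]; norm_num
  · exact absurd hq (by norm_num)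
  · have h : orderOf ((43 : ℕ) : ZMod 11) = 2 := (orderOf_eq_iff (by norm_num)).mpr (by decide)
    rw [h]; norm_num
  · exact absurd hq (by norm_num)
  · exact absurd hq (by norm_num)
  · exact absurd hq (by norm_num)
  · have h : orderOf ((47 : ℕ) : ZMod 11) = 5 := (orderOf_eq_iff (by norm_num)).mpr (by decide)
    rw [h]; norm_num
  · exact absurd hq (by norm_num)
  · exact absurd hq (by norm_num)
  · exact absurd hq (by norm_num)
  · exact absurd hq (by norm_num)
  · exact absurd hq (by norm_num)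
  · have h : orderOf ((53 : ℕ) : ZMod 11) = 5 := (orderOf_eq_iff (by norm_num)).mpr (by decide)
    rw [h]; norm_num
  · exact absurd hq (by norm_num)
  · exact absurd hq (by norm_num)
  · exact absurd hq (by norm_num)
  · exact absurd hq (by norm_num)
  · exact absurd hq (by norm_num)
  · have h : orderOf ((59 : ℕ) : ZMod 11) = 5 := (orderOf_eq_iff (by norm_num)).mpr (by decide)
    rw [h]; norm_num
  · exact absurd hq (by norm_num)
  · have h : orderOf ((61 : ℕ) : ZMod 11) = 10 := (orderOf_eq_iff (by norm_num)).mpr (by decide)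
    rw [h]; norm_num
  · exact absurd hq (by norm_num)
  · exact absurd hq (by norm_num)
  · exact absurd hq (by norm_num)
  · exact absurd hq (by norm_num)
  · exact absurd hq (by norm_num)

/-- The ring of integers of an `11`-th cyclotomic extension of `ℚ` is a principal ideal
domain. -/
theorem pid_eleven_of_cyclotomic (K : Type*) [Field K] [NumberField K]
    [IsCyclotomicExtension {11} ℚ K] : IsPrincipalIdealRing (𝓞 K) := by
  have := IsCyclotomicExtension.isGalois {11} ℚ K
  have hζ := IsCyclotomicExtension.zeta_spec 11 ℚ K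
  refine RingOfIntegers.isPrincipalIdealRing_of_isPrincipal_of_lt_or_isPrincipal_of_mem_primesOver_of_mem_Icc ?_
  intro q hq hqp
  rw [Finset.mem_Icc] at hq
  rcases eq_or_ne q 11 with rfl | h11
  · refine ⟨span {hζ.toInteger - 1}, ⟨inferInstance, ?_⟩, Or.inr ⟨_, rfl⟩⟩
    constructor
    ext n
    rw [Ideal.under, Ideal.mem_comap, Ideal.mem_span_singleton, Ideal.mem_span_singleton,
      eq_intCast]
    exact (IsCyclotomicExtension.Rat.zeta_sub_one_dvd_intCast_iff' 11 hζ).symm
  rcases eq_or_ne q 23 with rfl | h23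
  · have : Fact (Nat.Prime 23) := ⟨by norm_num⟩
    refine ⟨RingHom.ker (phi23 hζ), ⟨RingHom.ker_isPrime _, ?_⟩, Or.inr ?_⟩
    · constructor
      ext n
      rw [Ideal.under, Ideal.mem_comap, Ideal.mem_span_singleton, RingHom.mem_ker,
        eq_intCast, map_intCast, ZMod.intCast_zmod_eq_zero_iff_dvd]
    · rw [ker_phi23]
      exact ⟨_, rfl⟩
  · have hq66 : q ≤ 66 := hq.2.trans (floor_minkowski_eleven_le K)
    exact exists_prime_over_of_orderOf K hqp h11 _ _ rfl
      (lt_of_le_of_lt (floor_minkowski_eleven_le K)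
        (sixtysix_lt_pow_orderOf hqp hq66 h11 h23))

end pid

end Fermat.Agent.S11
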