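import Mathlib
import Fermat.Agent.S11.Defs
import Fermat.Agent.S11.CaseOne
import Fermat.Agent.S11.CaseTwo
import Fermat.Agent.S11.PID
import Fermat.Agent.S11.Kummer11

set_option autoImplicit false

namespace Fermat.Agent.S11

open NumberField

attribute [local instance] fact_prime_eleven

/-- Case II of Fermat's Last Theorem for exponent `11` over `ℤ`. -/
theorem caseII_eleven (a b c : ℤ) (hc : c ≠ 0) (ha : ¬ (11 : ℤ) ∣ a) (hb : ¬ (11 : ℤ) ∣ b)
    (hcd : (11 : ℤ) ∣ c) (hab : IsCoprime a b) : a ^ 11 + b ^ 11 ≠ c ^ 11 := by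
  have hcyc : IsCyclotomicExtension {11} ℚ (CyclotomicField 11 ℚ) :=
    CyclotomicField.isCyclotomicExtension 11 ℚ
  exact caseII_int (p := 11) (CyclotomicField 11 ℚ) (by norm_num)
    (pid_eleven_of_cyclotomic (CyclotomicField 11 ℚ))
    (kummer_eleven_of_cyclotomic (CyclotomicField 11 ℚ)) a b c hc
    (by exact_mod_cast ha) (by exact_mod_cast hb) (by exact_mod_cast hcd) hab

/-- Fermat's Last Theorem for exponent `11`, for pairwise coprime nonzero integers. -/
theorem flt_eleven_coprime (a b c : ℤ) (ha : a ≠ 0) (hb : b ≠ 0) (hc : c ≠ 0)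
    (hab : IsCoprime a b) (hac : IsCoprime a c) (hbc : IsCoprime b c) :
    a ^ 11 + b ^ 11 ≠ c ^ 11 := by
  intro h
  have h11 : Prime (11 : ℤ) := by norm_num
  have hnd : ∀ {x y : ℤ}, IsCoprime x y → (11 : ℤ) ∣ x → ¬ (11 : ℤ) ∣ y := by
    intro x y hxy hx hy
    exact h11.not_isUnit (hxy.isUnit_of_dvd' hx hy)
  by_cases hdvd : (11 : ℤ) ∣ a * b * c
  · rcases h11.dvd_or_dvd hdvd with hab' | hc'
    · rcases h11.dvd_or_dvd hab' with ha' | hb'
      · -- 11 ∣ a : c ^ 11 + (-b) ^ 11 = a ^ 11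
        refine caseII_eleven c (-b) a ha (fun hcc => hnd hac ha' hcc)
          (fun hbb => hnd hab ha' ((dvd_neg).mp hbb)) ha' hbc.symm.neg_right ?_
        rw [Odd.neg_pow (by decide)]
        linear_combination -h
      · -- 11 ∣ b : c ^ 11 + (-a) ^ 11 = b ^ 11
        refine caseII_eleven c (-a) b hb (fun hcc => hnd hbc hb' hcc)
          (fun haa => hnd hab.symm hb' ((dvd_neg).mp haa)) hb' hac.symm.neg_right ?_
        rw [Odd.neg_pow (by decide)]
        linear_combination -h
    · exact caseII_eleven a b c hc (fun haa => hnd hac.symm hc' haa)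
        (fun hbb => hnd hbc.symm hc' hbb) hc' hab h
  · exact caseI_eleven hdvd h

end Fermat.Agent.S11
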